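/-
Cramer–Hensel algebra for S19, part 1: elementary lemmas in a commutative ring with a
nilpotent ideal.

* `dvd_X_pow_of_isDistinguishedAt` : a distinguished polynomial of degree `d` divides `X ^ (d * n)`
  as soon as `𝔞 ^ n = ⊥`;
* `coeff_modByMonic_sub_mem` : reduction modulo a distinguished polynomial changes the low
  coefficients only by elements of `𝔞`;
* `exists_unique_mulVec_eq` : a matrix congruent modulo `𝔞` to an invertible one is invertible;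
* `exists_unique_root` : a polynomial congruent to `X` modulo `𝔞` has exactly one root in `𝔞`.
-/
import Mathlib

namespace Fermat.Agent.S19.CH

open Polynomial

variable {𝒪 : Type*} [CommRing 𝒪]

/-- Membership in `Ideal.map C 𝔞` coefficientwise, in the form used below. -/
theorem sub_X_pow_mem_map_C {𝔞 : Ideal 𝒪} {p : 𝒪[X]} (hp : p.IsDistinguishedAt 𝔞) :
    p - X ^ p.natDegree ∈ Ideal.map (C : 𝒪 →+* 𝒪[X]) 𝔞 := by
  rw [Ideal.mem_map_C_iff]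
  intro k
  rw [coeff_sub, coeff_X_pow]
  rcases lt_trichotomy k p.natDegree with h | h | h
  · rw [if_neg h.ne, sub_zero]
    exact hp.mem h
  · subst h
    rw [if_pos rfl, hp.monic.coeff_natDegree, sub_self]
    exact 𝔞.zero_mem
  · rw [if_neg h.ne', coeff_eq_zero_of_natDegree_lt h, sub_zero]
    exact 𝔞.zero_mem

/-- If `𝔞 ^ n = ⊥`, a polynomial all of whose coefficients lie in `𝔞` has vanishing `n`-th
power. -/
theorem pow_eq_zero_of_mem_map_C {𝔞 : Ideal 𝒪} {n : ℕ} (hn : 𝔞 ^ n = ⊥) {ρ : 𝒪[X]}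
    (hρ : ρ ∈ Ideal.map (C : 𝒪 →+* 𝒪[X]) 𝔞) : ρ ^ n = 0 := by
  have h1 : ρ ^ n ∈ (Ideal.map (C : 𝒪 →+* 𝒪[X]) 𝔞) ^ n := Ideal.pow_mem_pow hρ n
  rw [← Ideal.map_pow, hn, Ideal.map_bot] at h1
  simpa using h1

/-- **Lemma (W).** A distinguished polynomial of degree `d` over a ring in which `𝔞 ^ n = ⊥`
divides `X ^ (d * n)`. -/
theorem dvd_X_pow_of_isDistinguishedAt {𝔞 : Ideal 𝒪} {n : ℕ} (hn : 𝔞 ^ n = ⊥) {p : 𝒪[X]}
    (hp : p.IsDistinguishedAt 𝔞) : p ∣ X ^ (p.natDegree * n) := by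
  set ρ : 𝒪[X] := p - X ^ p.natDegree with hρ
  have hρn : (-ρ) ^ n = 0 := by
    have : -ρ ∈ Ideal.map (C : 𝒪 →+* 𝒪[X]) 𝔞 := (Ideal.neg_mem_iff _).2 (sub_X_pow_mem_map_C hp)
    exact pow_eq_zero_of_mem_map_C hn this
  have h := sub_dvd_pow_sub_pow (X ^ p.natDegree : 𝒪[X]) (-ρ) n
  rw [hρn, sub_zero, ← pow_mul] at h
  have hp' : (X ^ p.natDegree : 𝒪[X]) - -ρ = p := by rw [hρ]; ring
  rwa [hp'] at h

/-- A variant: `p ∣ X ^ N` for every `N ≥ d * n`. -/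
theorem dvd_X_pow_of_isDistinguishedAt_of_le {𝔞 : Ideal 𝒪} {n : ℕ} (hn : 𝔞 ^ n = ⊥) {p : 𝒪[X]}
    (hp : p.IsDistinguishedAt 𝔞) {N : ℕ} (hN : p.natDegree * n ≤ N) : p ∣ X ^ N :=
  (dvd_X_pow_of_isDistinguishedAt hn hp).trans (pow_dvd_pow _ hN)

/-- `X - C τ` is distinguished at `𝔞` when `τ ∈ 𝔞`. -/
theorem isDistinguishedAt_X_sub_C [Nontrivial 𝒪] {𝔞 : Ideal 𝒪} {τ : 𝒪} (hτ : τ ∈ 𝔞) :
    (X - C τ : 𝒪[X]).IsDistinguishedAt 𝔞 := by
  refine ⟨⟨fun {k} hk => ?_⟩, monic_X_sub_C τ⟩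
  rw [natDegree_X_sub_C] at hk
  have hk0 : k = 0 := by omega
  subst hk0
  simpa using hτ

/-- Reduction modulo a distinguished polynomial of degree `d` changes the coefficients of index
`< d` only by elements of `𝔞`. -/
theorem coeff_modByMonic_sub_mem {𝔞 : Ideal 𝒪} {p : 𝒪[X]} (hp : p.IsDistinguishedAt 𝔞)
    (f : 𝒪[X]) {k : ℕ} (hk : k < p.natDegree) :
    (f %ₘ p).coeff k - f.coeff k ∈ 𝔞 := by
  have h1 : f %ₘ p = f - p * (f /ₘ p) := modByMonic_eq_sub_mul_div f p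
  have h2 : p * (f /ₘ p) = X ^ p.natDegree * (f /ₘ p) + (p - X ^ p.natDegree) * (f /ₘ p) := by
    ring
  have h3 : ((p - X ^ p.natDegree) * (f /ₘ p)).coeff k ∈ 𝔞 := by
    have : (p - X ^ p.natDegree) * (f /ₘ p) ∈ Ideal.map (C : 𝒪 →+* 𝒪[X]) 𝔞 :=
      Ideal.mul_mem_right _ _ (sub_X_pow_mem_map_C hp)
    exact Ideal.mem_map_C_iff.1 this k
  have h4 : (X ^ p.natDegree * (f /ₘ p)).coeff k = 0 := by
    rw [coeff_X_pow_mul']
    exact if_neg (by omega)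
  rw [h1, coeff_sub, h2, coeff_add, h4, zero_add]
  have : f.coeff k - ((p - X ^ p.natDegree) * (f /ₘ p)).coeff k - f.coeff k
      = -((p - X ^ p.natDegree) * (f /ₘ p)).coeff k := by ring
  rw [this]
  exact 𝔞.neg_mem h3

section Matrix

variable {m : Type*} [Fintype m] [DecidableEq m]

/-- Powers of a square matrix with entries in `𝔞` have entries in the powers of `𝔞`. -/
theorem matrix_pow_apply_mem {𝔞 : Ideal 𝒪} {M : Matrix m m 𝒪} (hM : ∀ i j, M i j ∈ 𝔞) (k : ℕ) :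
    ∀ i j, (M ^ k) i j ∈ 𝔞 ^ k := by
  induction k with
  | zero =>
    intro i j
    simp
  | succ k ih =>
    intro i j
    have h1 : M ^ (k + 1) = M ^ k * M := pow_succ M k
    rw [h1, Matrix.mul_apply, pow_succ]
    exact Ideal.sum_mem _ fun l _ => Ideal.mul_mem_mul (ih i l) (hM l j)

/-- A square matrix with entries in a nilpotent ideal is nilpotent. -/
theorem matrix_isNilpotent_of_mem {𝔞 : Ideal 𝒪} {n : ℕ} (hn : 𝔞 ^ n = ⊥) {M : Matrix m m 𝒪}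
    (hM : ∀ i j, M i j ∈ 𝔞) : IsNilpotent M := by
  refine ⟨n, ?_⟩
  ext i j
  have := matrix_pow_apply_mem hM n i j
  rw [hn] at this
  simpa using this

end Matrix

section Linear

variable {ρ J : Type*} [Fintype ρ] [DecidableEq ρ] [Fintype J] [DecidableEq J]

/-- **Linear step.** If `A ≡ A₀ (mod 𝔞)` with `A₀` two-sided invertible (inverse `G`) and `𝔞`
nilpotent, then `A` is bijective as a linear map; moreover solutions of `A x = b` with `b` in `𝔞`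
lie in `𝔞`. -/
theorem exists_unique_mulVec_eq {𝔞 : Ideal 𝒪} {n : ℕ} (hn : 𝔞 ^ n = ⊥)
    (A A₀ : Matrix ρ J 𝒪) (G : Matrix J ρ 𝒪) (hGA : G * A₀ = 1) (hAG : A₀ * G = 1)
    (hA : ∀ r j, A r j - A₀ r j ∈ 𝔞) (b : ρ → 𝒪) :
    (∃ x : J → 𝒪, A.mulVec x = b) ∧
      (∀ x x' : J → 𝒪, A.mulVec x = A.mulVec x' → x = x') ∧
      ((∀ r, b r ∈ 𝔞) → ∀ x : J → 𝒪, A.mulVec x = b → ∀ j, x j ∈ 𝔞) := by
  set Δ : Matrix ρ J 𝒪 := A - A₀ with hΔ
  have hΔmem : ∀ r j, Δ r j ∈ 𝔞 := fun r j => by simpa [hΔ] using hA r j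
  have hAeq : A = A₀ + Δ := by rw [hΔ]; abel
  -- left inverse
  have hM1 : ∀ i j, (G * Δ) i j ∈ 𝔞 := fun i j => by
    rw [Matrix.mul_apply]
    exact Ideal.sum_mem _ fun l _ => Ideal.mul_mem_left _ _ (hΔmem l j)
  have hM2 : ∀ i j, (Δ * G) i j ∈ 𝔞 := fun i j => by
    rw [Matrix.mul_apply]
    exact Ideal.sum_mem _ fun l _ => Ideal.mul_mem_right _ _ (hΔmem i l)
  obtain ⟨U1, hU1⟩ := (matrix_isNilpotent_of_mem hn hM1).isUnit_one_add
  obtain ⟨U2, hU2⟩ := (matrix_isNilpotent_of_mem hn hM2).isUnit_one_add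
  have hGA' : G * A = 1 + G * Δ := by rw [hAeq, Matrix.mul_add, hGA]
  have hAG' : A * G = 1 + Δ * G := by rw [hAeq, Matrix.add_mul, hAG]
  -- the left inverse `L` and the right inverse `Rr`
  set L : Matrix J ρ 𝒪 := (↑U1⁻¹ : Matrix J J 𝒪) * G with hL
  set Rr : Matrix J ρ 𝒪 := G * (↑U2⁻¹ : Matrix ρ ρ 𝒪) with hRr
  have hLA : L * A = 1 := by
    rw [hL, Matrix.mul_assoc, hGA', ← hU1]
    exact Units.inv_mul U1
  have hARr : A * Rr = 1 := by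
    rw [hRr, ← Matrix.mul_assoc, hAG', ← hU2]
    exact Units.mul_inv U2
  have hLx : ∀ x : J → 𝒪, L.mulVec (A.mulVec x) = x := fun x => by
    rw [Matrix.mulVec_mulVec, hLA, Matrix.one_mulVec]
  refine ⟨⟨Rr.mulVec b, ?_⟩, ?_, ?_⟩
  · rw [Matrix.mulVec_mulVec, hARr, Matrix.one_mulVec]
  · intro x x' h
    rw [← hLx x, h, hLx x']
  · intro hb x hx j
    rw [← hLx x, hx, Matrix.mulVec, dotProduct]
    exact Ideal.sum_mem _ fun l _ => Ideal.mul_mem_left _ _ (hb l)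

end Linear

section Hensel

/-- For a polynomial `v` with coefficients in `𝔞`, `v(y) - v(z) ∈ (y - z) 𝔞`. -/
theorem eval_sub_eval_eq_mul_of_mem_map_C {𝔞 : Ideal 𝒪} {v : 𝒪[X]}
    (hv : v ∈ Ideal.map (C : 𝒪 →+* 𝒪[X]) 𝔞) (y z : 𝒪) :
    ∃ d ∈ 𝔞, v.eval y - v.eval z = (y - z) * d := by
  rw [Ideal.mem_map_C_iff] at hv
  have hg : ∀ k : ℕ, ∃ g : 𝒪, y ^ k - z ^ k = (y - z) * g := fun k => sub_dvd_pow_sub_pow y z k
  choose g hg using hg
  refine ⟨∑ k ∈ Finset.range (v.natDegree + 1), v.coeff k * g k,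
    Ideal.sum_mem _ fun k _ => Ideal.mul_mem_right _ _ (hv k), ?_⟩
  rw [eval_eq_sum_range, eval_eq_sum_range, ← Finset.sum_sub_distrib, Finset.mul_sum]
  refine Finset.sum_congr rfl fun k _ => ?_
  rw [← mul_sub, hg k]
  ring

/-- **Hensel step (uniqueness).** A polynomial `w ≡ X (mod 𝔞)` over a ring with `𝔞` nilpotent has at
most one root in `𝔞`. -/
theorem root_unique {𝔞 : Ideal 𝒪} {n : ℕ} (hn : 𝔞 ^ n = ⊥) {w : 𝒪[X]}
    (hw : w - X ∈ Ideal.map (C : 𝒪 →+* 𝒪[X]) 𝔞) {τ τ' : 𝒪}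
    (h0 : w.eval τ = 0) (h0' : w.eval τ' = 0) : τ = τ' := by
  obtain ⟨d, hd, hd'⟩ := eval_sub_eval_eq_mul_of_mem_map_C hw τ τ'
  simp only [eval_sub, eval_X, h0, h0'] at hd'
  have hnil : IsNilpotent d := ⟨n, by
    have := Ideal.pow_mem_pow hd n
    rw [hn] at this
    simpa using this⟩
  have hu : IsUnit (1 + d) := hnil.isUnit_one_add
  have h1 : (τ - τ') * (1 + d) = 0 := by
    have : (τ - τ') * d = 0 - τ - (0 - τ') := hd'.symm
    rw [mul_add, mul_one, this]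
    ring
  have := hu.mul_left_eq_zero.1 h1
  exact sub_eq_zero.1 this

/-- One step of the iteration `α ↦ α - w(α)`. -/
theorem eval_iter_mem {𝔞 : Ideal 𝒪} {w : 𝒪[X]}
    (hw : w - X ∈ Ideal.map (C : 𝒪 →+* 𝒪[X]) 𝔞) {α : 𝒪} {s : ℕ}
    (hα : w.eval α ∈ 𝔞 ^ s) : w.eval (α - w.eval α) ∈ 𝔞 ^ (s + 1) := by
  obtain ⟨d, hd, hd'⟩ := eval_sub_eval_eq_mul_of_mem_map_C hw (α - w.eval α) α
  simp only [eval_sub, eval_X] at hd'
  have h1 : w.eval (α - w.eval α) = -(w.eval α * d) := by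
    have : eval (α - eval α w) w = (α - eval α w - α) * d + (α - eval α w) + (eval α w - α) := by
      rw [← hd']; ring
    rw [this]; ring
  rw [h1, pow_succ]
  exact (Ideal.neg_mem_iff _).2 (Ideal.mul_mem_mul hα hd)

/-- **Hensel step (existence).** A polynomial `w ≡ X (mod 𝔞)` over a ring with `𝔞 ^ n = ⊥` has a
root in `𝔞`. -/
theorem exists_root {𝔞 : Ideal 𝒪} {n : ℕ} (hn : 𝔞 ^ n = ⊥) {w : 𝒪[X]}
    (hw : w - X ∈ Ideal.map (C : 𝒪 →+* 𝒪[X]) 𝔞) : ∃ τ ∈ 𝔞, w.eval τ = 0 := by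
  have hw0 : w.eval 0 ∈ 𝔞 := by
    have := (Ideal.mem_map_C_iff.1 hw) 0
    simpa [coeff_zero_eq_eval_zero] using this
  have key : ∀ s : ℕ, ∃ α ∈ 𝔞, w.eval α ∈ 𝔞 ^ (s + 1) := by
    intro s
    induction s with
    | zero => exact ⟨0, 𝔞.zero_mem, by simpa using hw0⟩
    | succ s ih =>
      obtain ⟨α, hα, hα'⟩ := ih
      refine ⟨α - w.eval α, 𝔞.sub_mem hα ?_, eval_iter_mem hw hα'⟩
      exact Ideal.pow_le_self (Nat.succ_ne_zero s) hα'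
  obtain ⟨α, hα, hα'⟩ := key n
  refine ⟨α, hα, ?_⟩
  have : 𝔞 ^ (n + 1) = ⊥ := by rw [pow_succ, hn, Ideal.bot_mul]
  rw [this] at hα'
  simpa using hα'

end Hensel

end Fermat.Agent.S19.CH
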