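/-
Cramer–Hensel algebra for S19, part 2: the core existence-and-uniqueness theorem over a ring with
a nilpotent ideal.

DATA over a commutative ring `R`: finite index types `ι` (discs) and `J` (non-constant basis
functions), multiplicities `a : ι → ℕ`, polynomials `F i j : R[X]` (truncated expansions of
`t_i ^ (a i + 1) * h_j` in the disc `i`), and a two-sided inverse `G` of the coefficient matrix
`coeffMatrix a F` (rows `(i, k)`, `k < a i`; entry `coeff_k (F i j)`).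

For an `R`-algebra `𝒪`, a nilpotent ideal `𝔞` and distinguished polynomials `W i` of degree `a i`,
there is exactly one pair `(x, τ)` with `τ i ∈ 𝔞` and
`W i * (X - C (τ i)) ∣ X ^ (a i + 1) + ∑ j, C (x j) * F i j` for all `i`.
-/
import Fermat.Agent.S19.CH.Nilp

set_option linter.unusedSectionVars false

namespace Fermat.Agent.S19.CH

open Polynomial

variable {R : Type*} [CommRing R] {ι J : Type*} [Fintype ι] [DecidableEq ι] [Fintype J]
  [DecidableEq J]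

/-- Row index of the coefficient matrix: a disc `i` and an order `k < a i`. -/
abbrev Row (a : ι → ℕ) : Type _ := Σ i, Fin (a i)

/-- The coefficient matrix `C[(i,k), j] = coeff_k (F i j)`, `k < a i`. -/
def coeffMatrix (a : ι → ℕ) (F : ι → J → R[X]) : Matrix (Row a) J R :=
  fun r j => (F r.1 j).coeff r.2

variable (a : ι → ℕ) (F : ι → J → R[X])
variable {𝒪 : Type*} [CommRing 𝒪] [Algebra R 𝒪]

/-- The expansion in the disc `i` of the candidate function `1 + ∑ x_j h_j`, multiplied by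
`t_i ^ (a i + 1)`. -/
noncomputable def Psi (x : J → 𝒪) (i : ι) : 𝒪[X] :=
  X ^ (a i + 1) + ∑ j, C (x j) * (F i j).map (algebraMap R 𝒪)

/-- `(x, τ)` solves the Cramer–Hensel problem for the distinguished polynomials `W i`. -/
def IsSol (𝔞 : Ideal 𝒪) (W : ι → 𝒪[X]) (x : J → 𝒪) (τ : ι → 𝒪) : Prop :=
  ∀ i, τ i ∈ 𝔞 ∧ W i * (X - C (τ i)) ∣ Psi a F x i

/-- The matrix of the linear system `Psi x i %ₘ W i = 0`. -/
noncomputable def pertMatrix (W : ι → 𝒪[X]) : Matrix (Row a) J 𝒪 :=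
  fun r j => (((F r.1 j).map (algebraMap R 𝒪)) %ₘ W r.1).coeff r.2

/-- The inhomogeneous term of the linear system `Psi x i %ₘ W i = 0`. -/
noncomputable def pertVec (W : ι → 𝒪[X]) : Row a → 𝒪 :=
  fun r => ((X ^ (a r.1 + 1) : 𝒪[X]) %ₘ W r.1).coeff r.2

theorem Psi_modByMonic (W : ι → 𝒪[X]) (x : J → 𝒪) (i : ι) :
    Psi a F x i %ₘ W i = (X ^ (a i + 1) : 𝒪[X]) %ₘ W i
      + ∑ j, x j • (((F i j).map (algebraMap R 𝒪)) %ₘ W i) := by
  unfold Psi
  rw [add_modByMonic]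
  congr 1
  have h := map_sum (modByMonicHom (W i)) (fun j => C (x j) * (F i j).map (algebraMap R 𝒪))
    Finset.univ
  simp only [modByMonicHom_apply] at h
  rw [h]
  refine Finset.sum_congr rfl fun j _ => ?_
  rw [C_mul', smul_modByMonic]

theorem Psi_modByMonic_coeff (W : ι → 𝒪[X]) (x : J → 𝒪) (i : ι) (k : ℕ) :
    (Psi a F x i %ₘ W i).coeff k = ((X ^ (a i + 1) : 𝒪[X]) %ₘ W i).coeff k
      + ∑ j, (((F i j).map (algebraMap R 𝒪)) %ₘ W i).coeff k * x j := by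
  rw [Psi_modByMonic, coeff_add, finsetSum_coeff]
  congr 1
  refine Finset.sum_congr rfl fun j _ => ?_
  rw [coeff_smul, smul_eq_mul, mul_comm]

/-- The linear system: `W i ∣ Psi x i` for all `i` iff `pertMatrix * x = - pertVec`. -/
theorem forall_dvd_Psi_iff (W : ι → 𝒪[X]) (hW : ∀ i, (W i).Monic)
    (hdeg : ∀ i, (W i).natDegree = a i) (x : J → 𝒪) :
    (∀ i, W i ∣ Psi a F x i) ↔ (pertMatrix a F W).mulVec x = - pertVec a W := by
  constructor
  · intro h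
    funext r
    obtain ⟨i, k⟩ := r
    have h1 := (modByMonic_eq_zero_iff_dvd (hW i)).2 (h i)
    have h2 := Psi_modByMonic_coeff a F W x i k
    rw [h1, coeff_zero] at h2
    simp only [Matrix.mulVec, dotProduct, pertMatrix, pertVec, Pi.neg_apply]
    linear_combination -h2
  · intro h i
    rw [← modByMonic_eq_zero_iff_dvd (hW i)]
    rcases subsingleton_or_nontrivial 𝒪 with hs | hs
    · exact Subsingleton.elim _ _
    ext k
    rw [coeff_zero]
    by_cases hk : k < a i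
    · have h2 := Psi_modByMonic_coeff a F W x i k
      have h3 := congrFun h ⟨i, ⟨k, hk⟩⟩
      simp only [Matrix.mulVec, dotProduct, pertMatrix, pertVec, Pi.neg_apply] at h3
      rw [h2]
      linear_combination h3
    · apply coeff_eq_zero_of_degree_lt
      refine lt_of_lt_of_le (degree_modByMonic_lt _ (hW i)) ?_
      rw [degree_eq_natDegree (hW i).ne_zero, hdeg i]
      exact_mod_cast not_lt.1 hk

/-- The perturbed matrix is congruent to the coefficient matrix modulo `𝔞`. -/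
theorem pertMatrix_sub_mem {𝔞 : Ideal 𝒪} (W : ι → 𝒪[X]) (hW : ∀ i, (W i).IsDistinguishedAt 𝔞)
    (hdeg : ∀ i, (W i).natDegree = a i) (r : Row a) (j : J) :
    pertMatrix a F W r j - ((coeffMatrix a F).map (algebraMap R 𝒪)) r j ∈ 𝔞 := by
  have := coeff_modByMonic_sub_mem (hW r.1) ((F r.1 j).map (algebraMap R 𝒪)) (k := r.2)
    (by rw [hdeg]; exact r.2.2)
  simpa [pertMatrix, coeffMatrix, coeff_map] using this

/-- The inhomogeneous term lies in `𝔞`. -/
theorem pertVec_mem {𝔞 : Ideal 𝒪} (W : ι → 𝒪[X]) (hW : ∀ i, (W i).IsDistinguishedAt 𝔞)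
    (hdeg : ∀ i, (W i).natDegree = a i) (r : Row a) : pertVec a W r ∈ 𝔞 := by
  have := coeff_modByMonic_sub_mem (hW r.1) (X ^ (a r.1 + 1) : 𝒪[X]) (k := r.2)
    (by rw [hdeg]; exact r.2.2)
  have h0 : ((X ^ (a r.1 + 1) : 𝒪[X])).coeff r.2 = 0 := by
    rw [coeff_X_pow]
    exact if_neg (by have := r.2.2; omega)
  rw [h0, sub_zero] at this
  exact this

section Main

variable (G : Matrix J (Row a) R)

/-- **Linear step of the core theorem.** -/
theorem exists_unique_linear {𝔞 : Ideal 𝒪} {n : ℕ} (hn : 𝔞 ^ n = ⊥)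
    (hGC : G * coeffMatrix a F = 1) (hCG : coeffMatrix a F * G = 1)
    (W : ι → 𝒪[X]) (hW : ∀ i, (W i).IsDistinguishedAt 𝔞) (hdeg : ∀ i, (W i).natDegree = a i) :
    (∃ x : J → 𝒪, ∀ i, W i ∣ Psi a F x i) ∧
      (∀ x x' : J → 𝒪, (∀ i, W i ∣ Psi a F x i) → (∀ i, W i ∣ Psi a F x' i) → x = x') ∧
      (∀ x : J → 𝒪, (∀ i, W i ∣ Psi a F x i) → ∀ j, x j ∈ 𝔞) := by
  have hmon : ∀ i, (W i).Monic := fun i => (hW i).monic
  have hGC' : G.map (algebraMap R 𝒪) * (coeffMatrix a F).map (algebraMap R 𝒪) = 1 := by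
    rw [← Matrix.map_mul, hGC, Matrix.map_one _ (map_zero _) (map_one _)]
  have hCG' : (coeffMatrix a F).map (algebraMap R 𝒪) * G.map (algebraMap R 𝒪) = 1 := by
    rw [← Matrix.map_mul, hCG, Matrix.map_one _ (map_zero _) (map_one _)]
  obtain ⟨⟨x, hx⟩, huniq, hmem⟩ := exists_unique_mulVec_eq hn (pertMatrix a F W)
    ((coeffMatrix a F).map (algebraMap R 𝒪)) (G.map (algebraMap R 𝒪)) hGC' hCG'
    (pertMatrix_sub_mem a F W hW hdeg) (- pertVec a W)
  refine ⟨⟨x, (forall_dvd_Psi_iff a F W hmon hdeg x).2 hx⟩, ?_, ?_⟩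
  · intro x x' h h'
    apply huniq
    rw [(forall_dvd_Psi_iff a F W hmon hdeg x).1 h, (forall_dvd_Psi_iff a F W hmon hdeg x').1 h']
  · intro x h
    refine hmem (fun r => ?_) x ((forall_dvd_Psi_iff a F W hmon hdeg x).1 h)
    rw [Pi.neg_apply]
    exact (Ideal.neg_mem_iff _).2 (pertVec_mem a W hW hdeg r)

end Main

/-- The quotient `Psi x i /ₘ W i` is congruent to `X` modulo `𝔞` when `x ∈ 𝔞`. -/
theorem divByMonic_sub_X_mem {𝔞 : Ideal 𝒪} (W : ι → 𝒪[X]) (hW : ∀ i, (W i).IsDistinguishedAt 𝔞)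
    (hdeg : ∀ i, (W i).natDegree = a i) (x : J → 𝒪) (hx : ∀ j, x j ∈ 𝔞) (i : ι) :
    Psi a F x i /ₘ W i - X ∈ Ideal.map (C : 𝒪 →+* 𝒪[X]) 𝔞 := by
  rw [Ideal.mem_map_C_iff]
  intro k
  rw [← Ideal.Quotient.eq_zero_iff_mem, ← coeff_map]
  have h1 : (Psi a F x i).map (Ideal.Quotient.mk 𝔞) = X ^ (a i) * X := by
    unfold Psi
    rw [Polynomial.map_add, Polynomial.map_pow, map_X, Polynomial.map_sum, pow_succ]
    have : ∀ j ∈ Finset.univ, (C (x j) * (F i j).map (algebraMap R 𝒪)).map (Ideal.Quotient.mk 𝔞)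
        = 0 := fun j _ => by
      rw [Polynomial.map_mul, map_C, Ideal.Quotient.eq_zero_iff_mem.2 (hx j), C_0, zero_mul]
    rw [Finset.sum_eq_zero this, add_zero]
  have h2 : (W i).map (Ideal.Quotient.mk 𝔞) = X ^ (a i) := by
    rw [(hW i).map_eq_X_pow, hdeg i]
  have h3 : (Psi a F x i /ₘ W i - X).map (Ideal.Quotient.mk 𝔞) = 0 := by
    rw [Polynomial.map_sub, map_divByMonic _ (hW i).monic, h1, h2, map_X,
      mul_divByMonic_cancel_left _ (monic_X_pow (a i)), sub_self]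
  rw [h3, coeff_zero]

/-- A solution is the same as a solution `x` of the linear system together with roots `τ i ∈ 𝔞`
of the quotients. -/
theorem isSol_iff {𝔞 : Ideal 𝒪} (W : ι → 𝒪[X]) (hW : ∀ i, (W i).Monic) (x : J → 𝒪)
    (τ : ι → 𝒪) :
    IsSol a F 𝔞 W x τ ↔
      (∀ i, W i ∣ Psi a F x i) ∧ ∀ i, τ i ∈ 𝔞 ∧ (Psi a F x i /ₘ W i).eval (τ i) = 0 := by
  constructor
  · intro h
    refine ⟨fun i => (dvd_mul_right _ _).trans (h i).2, fun i => ⟨(h i).1, ?_⟩⟩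
    obtain ⟨v, hv⟩ := (h i).2
    rw [hv, mul_assoc, mul_divByMonic_cancel_left _ (hW i)]
    simp
  · rintro ⟨h1, h2⟩ i
    refine ⟨(h2 i).1, ?_⟩
    have h3 : Psi a F x i = W i * (Psi a F x i /ₘ W i) := by
      have := modByMonic_add_div (Psi a F x i) (W i)
      rw [(modByMonic_eq_zero_iff_dvd (hW i)).2 (h1 i), zero_add] at this
      exact this.symm
    rw [h3]
    exact mul_dvd_mul_left _ (dvd_iff_isRoot.2 (h2 i).2)

section Main

variable (G : Matrix J (Row a) R)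

/-- **Theorem N (existence).** Over a ring with a nilpotent ideal `𝔞`, the Cramer–Hensel problem
for distinguished polynomials `W i` of degree `a i` has a solution. -/
theorem exists_isSol {𝔞 : Ideal 𝒪} {n : ℕ} (hn : 𝔞 ^ n = ⊥)
    (hGC : G * coeffMatrix a F = 1) (hCG : coeffMatrix a F * G = 1)
    (W : ι → 𝒪[X]) (hW : ∀ i, (W i).IsDistinguishedAt 𝔞) (hdeg : ∀ i, (W i).natDegree = a i) :
    ∃ (x : J → 𝒪) (τ : ι → 𝒪), IsSol a F 𝔞 W x τ := by
  obtain ⟨⟨x, hx⟩, -, hmem⟩ := exists_unique_linear a F G hn hGC hCG W hW hdeg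
  have hroot : ∀ i, ∃ τ ∈ 𝔞, (Psi a F x i /ₘ W i).eval τ = 0 := fun i =>
    exists_root hn (divByMonic_sub_X_mem a F W hW hdeg x (hmem x hx) i)
  choose τ hτ hτ' using hroot
  exact ⟨x, τ, (isSol_iff a F W (fun i => (hW i).monic) x τ).2 ⟨hx, fun i => ⟨hτ i, hτ' i⟩⟩⟩

/-- **Theorem N (uniqueness).** -/
theorem IsSol.unique {𝔞 : Ideal 𝒪} {n : ℕ} (hn : 𝔞 ^ n = ⊥)
    (hGC : G * coeffMatrix a F = 1) (hCG : coeffMatrix a F * G = 1)
    (W : ι → 𝒪[X]) (hW : ∀ i, (W i).IsDistinguishedAt 𝔞) (hdeg : ∀ i, (W i).natDegree = a i)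
    {x x' : J → 𝒪} {τ τ' : ι → 𝒪} (h : IsSol a F 𝔞 W x τ) (h' : IsSol a F 𝔞 W x' τ') :
    x = x' ∧ τ = τ' := by
  obtain ⟨-, huniq, hmem⟩ := exists_unique_linear a F G hn hGC hCG W hW hdeg
  rw [isSol_iff a F W (fun i => (hW i).monic)] at h h'
  have hxx : x = x' := huniq x x' h.1 h'.1
  subst hxx
  refine ⟨rfl, funext fun i => ?_⟩
  exact root_unique hn (divByMonic_sub_X_mem a F W hW hdeg x (hmem x h.1) i) (h.2 i).2 (h'.2 i).2

/-- The coefficients `x j` of a solution lie in `𝔞`. -/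
theorem IsSol.x_mem {𝔞 : Ideal 𝒪} {n : ℕ} (hn : 𝔞 ^ n = ⊥)
    (hGC : G * coeffMatrix a F = 1) (hCG : coeffMatrix a F * G = 1)
    (W : ι → 𝒪[X]) (hW : ∀ i, (W i).IsDistinguishedAt 𝔞) (hdeg : ∀ i, (W i).natDegree = a i)
    {x : J → 𝒪} {τ : ι → 𝒪} (h : IsSol a F 𝔞 W x τ) (j : J) : x j ∈ 𝔞 := by
  obtain ⟨-, -, hmem⟩ := exists_unique_linear a F G hn hGC hCG W hW hdeg
  rw [isSol_iff a F W (fun i => (hW i).monic)] at h
  exact hmem x h.1 j

end Main

section Functoriality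

variable {𝒪' : Type*} [CommRing 𝒪'] [Algebra R 𝒪']

theorem map_Psi (f : 𝒪 →ₐ[R] 𝒪') (x : J → 𝒪) (i : ι) :
    (Psi a F x i).map (f : 𝒪 →+* 𝒪') = Psi a F (fun j => f (x j)) i := by
  unfold Psi
  rw [Polynomial.map_add, Polynomial.map_pow, map_X, Polynomial.map_sum]
  congr 1
  refine Finset.sum_congr rfl fun j _ => ?_
  rw [Polynomial.map_mul, map_C, Polynomial.map_map, AlgHom.comp_algebraMap]
  rfl

/-- Solutions are preserved by `R`-algebra maps carrying `𝔞` into `𝔞'`. -/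
theorem IsSol.map {𝔞 : Ideal 𝒪} {𝔞' : Ideal 𝒪'} (f : 𝒪 →ₐ[R] 𝒪') (hf : ∀ z ∈ 𝔞, f z ∈ 𝔞')
    {W : ι → 𝒪[X]} {x : J → 𝒪} {τ : ι → 𝒪} (h : IsSol a F 𝔞 W x τ) :
    IsSol a F 𝔞' (fun i => (W i).map (f : 𝒪 →+* 𝒪')) (fun j => f (x j)) (fun i => f (τ i)) := by
  intro i
  refine ⟨hf _ (h i).1, ?_⟩
  have := Polynomial.map_dvd (f : 𝒪 →+* 𝒪') (h i).2
  rw [map_Psi, Polynomial.map_mul, Polynomial.map_sub, map_X, map_C] at this
  exact this

end Functoriality

end Fermat.Agent.S19.CH
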