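/-
Cramer–Hensel algebra for S19, part 4: consumer-facing corollaries of `exists_univ_poly`.

* `exists_univ_poly_powerSeries` : the expansions are power series `φ i j : R⟦X⟧` and the
  hypothesis is an exact identity in `𝒪⟦X⟧`;
* `exists_poly_pair` : the case `a i = 2`, `W i = (X - T i)(X - T' i)`, with universal polynomials
  in the variables `(T, T')`;
* `aeval_sub_aeval_mem` : congruence-stability of polynomial evaluation (for composing the
  approximations).
-/
import Fermat.Agent.S19.CH.Universal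

set_option linter.unusedSectionVars false

namespace Fermat.Agent.S19.CH

open Polynomial

variable {R : Type*} [CommRing R] {ι J : Type*} [Fintype ι] [DecidableEq ι] [Fintype J]
  [DecidableEq J]

section Congr

variable {𝒪 : Type*} [CommRing 𝒪] [Algebra R 𝒪] {σ : Type*}

/-- Polynomial evaluation preserves congruences modulo an ideal. -/
theorem aeval_sub_aeval_mem (I : Ideal 𝒪) (p : MvPolynomial σ R) (y z : σ → 𝒪)
    (h : ∀ s, y s - z s ∈ I) : MvPolynomial.aeval y p - MvPolynomial.aeval z p ∈ I := by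
  rw [← Ideal.Quotient.eq_zero_iff_mem, map_sub, sub_eq_zero]
  have h1 : ∀ w : σ → 𝒪, Ideal.Quotient.mk I (MvPolynomial.aeval w p)
      = MvPolynomial.aeval (fun s => Ideal.Quotient.mk I (w s)) p := by
    intro w
    have := MvPolynomial.comp_aeval (R := R) (f := w) (Ideal.Quotient.mkₐ R I)
    exact (AlgHom.congr_fun this p)
  rw [h1, h1]
  have h2 : (fun s => Ideal.Quotient.mk I (y s)) = fun s => Ideal.Quotient.mk I (z s) := by
    funext s
    rw [Ideal.Quotient.eq]
    exact h s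
  rw [h2]

end Congr

section PowerSeriesForm

variable (a : ι → ℕ)

/-- The coefficient matrix of a family of power series. -/
noncomputable def psCoeffMatrix (φ : ι → J → PowerSeries R) : Matrix (Row a) J R :=
  fun r j => PowerSeries.coeff r.2 (φ r.1 j)

theorem coeffMatrix_trunc (φ : ι → J → PowerSeries R) (N : ι → ℕ) (hN : ∀ i, a i ≤ N i) :
    coeffMatrix a (fun i j => PowerSeries.trunc (N i) (φ i j)) = psCoeffMatrix a φ := by
  funext r j
  unfold coeffMatrix psCoeffMatrix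
  rw [PowerSeries.coeff_trunc, if_pos (lt_of_lt_of_le r.2.2 (hN r.1))]

variable {𝒪 : Type*} [CommRing 𝒪] [Algebra R 𝒪]

/-- From an exact factorisation in `𝒪⟦X⟧` to a polynomial identity modulo `X ^ N`. -/
theorem exists_poly_identity (φ : ι → J → PowerSeries R) (x : J → 𝒪) (i : ι) (N : ℕ)
    (p : 𝒪[X]) (u : PowerSeries 𝒪)
    (h : (PowerSeries.X : PowerSeries 𝒪) ^ (a i + 1)
        + ∑ j, PowerSeries.C (x j) * (φ i j).map (algebraMap R 𝒪) = (p : PowerSeries 𝒪) * u) :
    ∃ q : 𝒪[X], Psi a (fun i j => PowerSeries.trunc N (φ i j)) x i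
      = p * PowerSeries.trunc N u + X ^ N * q := by
  have hdvd : (X : 𝒪[X]) ^ N ∣ Psi a (fun i j => PowerSeries.trunc N (φ i j)) x i
      - p * PowerSeries.trunc N u := by
    rw [X_pow_dvd_iff]
    intro d hd
    have h1 : (p * PowerSeries.trunc N u).coeff d = PowerSeries.coeff d ((p : PowerSeries 𝒪) * u) := by
      have e1 : PowerSeries.coeff d ((p : PowerSeries 𝒪) * u)
          = (PowerSeries.trunc N ((p : PowerSeries 𝒪) * u)).coeff d := by
        rw [PowerSeries.coeff_trunc, if_pos hd]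
      rw [e1, ← PowerSeries.trunc_mul_trunc, ← Polynomial.coe_mul, PowerSeries.coeff_trunc,
        if_pos hd, Polynomial.coeff_coe]
    rw [coeff_sub, h1, ← h]
    unfold Psi
    rw [coeff_add, map_add, finsetSum_coeff, map_sum]
    have h2 : ((X : 𝒪[X]) ^ (a i + 1)).coeff d
        = PowerSeries.coeff d ((PowerSeries.X : PowerSeries 𝒪) ^ (a i + 1)) := by
      rw [coeff_X_pow, PowerSeries.coeff_X_pow]
    have h3 : ∀ j ∈ Finset.univ,
        (C (x j) * (PowerSeries.trunc N (φ i j)).map (algebraMap R 𝒪)).coeff d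
          = PowerSeries.coeff d (PowerSeries.C (x j) * (φ i j).map (algebraMap R 𝒪)) := by
      intro j _
      rw [coeff_C_mul, PowerSeries.coeff_C_mul, coeff_map, PowerSeries.coeff_trunc, if_pos hd,
        PowerSeries.coeff_map]
    rw [h2, Finset.sum_congr rfl h3, sub_self]
  obtain ⟨q, hq⟩ := hdvd
  exact ⟨q, by rw [← hq]; ring⟩

/-- **Main theorem (Cramer–Hensel, power-series form).** -/
theorem exists_univ_poly_powerSeries (φ : ι → J → PowerSeries R) (G : Matrix J (Row a) R)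
    (hGC : G * psCoeffMatrix a φ = 1) (hCG : psCoeffMatrix a φ * G = 1) (n : ℕ) :
    ∃ P : ι → MvPolynomial (Row a) R,
      ∀ (𝒪 : Type*) [CommRing 𝒪] [Algebra R 𝒪] (𝔞 : Ideal 𝒪) (W : ι → 𝒪[X])
        (_ : ∀ i, (W i).IsDistinguishedAt 𝔞) (_ : ∀ i, (W i).natDegree = a i)
        (x : J → 𝒪) (τ : ι → 𝒪) (_ : ∀ i, τ i ∈ 𝔞) (u : ι → PowerSeries 𝒪)
        (_ : ∀ i, (PowerSeries.X : PowerSeries 𝒪) ^ (a i + 1)
              + ∑ j, PowerSeries.C (x j) * (φ i j).map (algebraMap R 𝒪)
            = ((W i * (X - C (τ i)) : 𝒪[X]) : PowerSeries 𝒪) * u i) (i : ι),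
        τ i - MvPolynomial.aeval (lowerCoeffs a W) (P i) ∈ 𝔞 ^ n := by
  set N : ι → ℕ := fun i => (a i + 1) * n + a i + 2 with hNdef
  have hN1 : ∀ i, a i ≤ N i := fun i => by rw [hNdef]; simp only; omega
  have hN3 : ∀ i, (a i + 1) * n ≤ N i := fun i => by rw [hNdef]; simp only; omega
  set F : ι → J → R[X] := fun i j => PowerSeries.trunc (N i) (φ i j) with hF
  have hC : coeffMatrix a F = psCoeffMatrix a φ := coeffMatrix_trunc a φ N hN1
  obtain ⟨P, hP⟩ := exists_univ_poly a F G (by rw [hC]; exact hGC) (by rw [hC]; exact hCG) n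
  refine ⟨P, ?_⟩
  intro 𝒪 _ _ 𝔞 W hW hdeg x τ hτ u hid i
  have hq : ∀ i, ∃ q : 𝒪[X], Psi a F x i
      = W i * (X - C (τ i)) * PowerSeries.trunc (N i) (u i) + X ^ (N i) * q := by
    intro i
    obtain ⟨q, hq⟩ := exists_poly_identity a φ x i (N i) (W i * (X - C (τ i))) (u i) (hid i)
    refine ⟨q, ?_⟩
    rw [← hq]
    -- `Psi` only sees row `i` of `F`
    unfold Psi
    rfl
  choose q hq using hq
  exact hP 𝒪 𝔞 W hW hdeg x τ hτ (fun i => PowerSeries.trunc (N i) (u i)) q N hN3 hq i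

end PowerSeriesForm

section Pair

/-- The substitution `e_{i,0} ↦ T_i T'_i`, `e_{i,1} ↦ -(T_i + T'_i)`. -/
noncomputable def pairSubst : Row (fun _ : ι => 2) → MvPolynomial (ι ⊕ ι) R := fun r =>
  if (r.2 : ℕ) = 0 then MvPolynomial.X (Sum.inl r.1) * MvPolynomial.X (Sum.inr r.1)
  else -(MvPolynomial.X (Sum.inl r.1) + MvPolynomial.X (Sum.inr r.1))

variable {𝒪 : Type*} [CommRing 𝒪] [Algebra R 𝒪]

theorem pair_coeff (T T' : 𝒪) :
    ((X - C T) * (X - C T') : 𝒪[X]).coeff 0 = T * T' ∧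
      ((X - C T) * (X - C T') : 𝒪[X]).coeff 1 = -(T + T') := by
  have h : ((X - C T) * (X - C T') : 𝒪[X]) = X ^ 2 + C (-(T + T')) * X + C (T * T') := by
    simp only [map_neg, map_add, map_mul]
    ring
  rw [h]
  constructor
  · simp [coeff_X_pow, coeff_X]
  · simp [coeff_X_pow, coeff_C]

theorem aeval_pairSubst (T T' : ι → 𝒪) (r : Row (fun _ : ι => 2)) :
    MvPolynomial.aeval (Sum.elim T T') (pairSubst (R := R) r)
      = lowerCoeffs (fun _ : ι => 2) (fun i => (X - C (T i)) * (X - C (T' i))) r := by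
  obtain ⟨i, k⟩ := r
  unfold pairSubst lowerCoeffs
  have hk : (k : ℕ) = 0 ∨ (k : ℕ) = 1 := by
    have h2 : (k : ℕ) < 2 := k.2
    omega
  rcases hk with hk | hk
  · simp only [hk, if_true]
    rw [(pair_coeff (T i) (T' i)).1]
    simp
  · simp only [hk, one_ne_zero, if_false]
    rw [(pair_coeff (T i) (T' i)).2]
    simp

/-- **Main theorem (Cramer–Hensel) for pairs of points**: `a i = 2`,
`W i = (X - T i)(X - T' i)`; the third root `τ i` is congruent modulo `𝔞 ^ n` to a universal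
polynomial in `(T, T')` with coefficients in `R`. -/
theorem exists_poly_pair (φ : ι → J → PowerSeries R) (G : Matrix J (Row (fun _ : ι => 2)) R)
    (hGC : G * psCoeffMatrix (fun _ : ι => 2) φ = 1)
    (hCG : psCoeffMatrix (fun _ : ι => 2) φ * G = 1) (n : ℕ) :
    ∃ P : ι → MvPolynomial (ι ⊕ ι) R,
      ∀ (𝒪 : Type*) [CommRing 𝒪] [Algebra R 𝒪] (𝔞 : Ideal 𝒪) (T T' τ : ι → 𝒪)
        (_ : ∀ i, T i ∈ 𝔞) (_ : ∀ i, T' i ∈ 𝔞) (_ : ∀ i, τ i ∈ 𝔞)
        (x : J → 𝒪) (u : ι → PowerSeries 𝒪)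
        (_ : ∀ i, (PowerSeries.X : PowerSeries 𝒪) ^ 3
              + ∑ j, PowerSeries.C (x j) * (φ i j).map (algebraMap R 𝒪)
            = (((X - C (T i)) * (X - C (T' i)) * (X - C (τ i)) : 𝒪[X]) : PowerSeries 𝒪) * u i)
        (i : ι), τ i - MvPolynomial.aeval (Sum.elim T T') (P i) ∈ 𝔞 ^ n := by
  obtain ⟨P₀, hP₀⟩ := exists_univ_poly_powerSeries (fun _ : ι => 2) φ G hGC hCG n
  refine ⟨fun i => MvPolynomial.bind₁ (pairSubst (R := R)) (P₀ i), ?_⟩
  intro 𝒪 _ _ 𝔞 T T' τ hT hT' hτ x u hid i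
  rcases subsingleton_or_nontrivial 𝒪 with hs | hs
  · rw [Subsingleton.elim (τ i - _) 0]
    exact Ideal.zero_mem _
  have hW : ∀ i, ((X - C (T i)) * (X - C (T' i)) : 𝒪[X]).IsDistinguishedAt 𝔞 := fun i =>
    (isDistinguishedAt_X_sub_C (hT i)).mul (isDistinguishedAt_X_sub_C (hT' i))
  have hdeg : ∀ i, ((X - C (T i)) * (X - C (T' i)) : 𝒪[X]).natDegree = 2 := fun i => by
    rw [Monic.natDegree_mul (monic_X_sub_C _) (monic_X_sub_C _), natDegree_X_sub_C,
      natDegree_X_sub_C]
  have := hP₀ 𝒪 𝔞 (fun i => (X - C (T i)) * (X - C (T' i))) hW hdeg x τ hτ u hid i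
  rw [MvPolynomial.aeval_bind₁]
  have h2 : (fun r => MvPolynomial.aeval (Sum.elim T T') (pairSubst (R := R) r))
      = lowerCoeffs (fun _ : ι => 2) (fun i => (X - C (T i)) * (X - C (T' i))) :=
    funext fun r => aeval_pairSubst T T' r
  rw [h2]
  exact this

end Pair

section Inverse

variable {ρ : Type*} [Fintype ρ] [DecidableEq ρ]

/-- A rectangular matrix that becomes square with unit determinant after reindexing the columns
has a two-sided inverse. -/
theorem exists_inverse_of_isUnit_det (e : ρ ≃ J) (C : Matrix ρ J R)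
    (h : IsUnit (Matrix.det (C.submatrix id e))) :
    ∃ G : Matrix J ρ R, G * C = 1 ∧ C * G = 1 := by
  set M : Matrix ρ ρ R := C.submatrix id e with hM
  have hC : C = M.submatrix id e.symm := by
    rw [hM]
    ext r j
    simp
  have h1 : M * M⁻¹ = 1 := Matrix.mul_nonsing_inv M h
  have h2 : M⁻¹ * M = 1 := Matrix.nonsing_inv_mul M h
  refine ⟨(M⁻¹).submatrix e.symm id, ?_, ?_⟩
  · rw [hC, ← Matrix.submatrix_mul _ _ _ id _ Function.bijective_id, h2,
      Matrix.submatrix_one_equiv]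
  · rw [hC, Matrix.submatrix_mul_equiv, h1, Matrix.submatrix_id_id]

/-- Over a local ring it suffices that the determinant is a unit in the residue field. -/
theorem isUnit_det_of_residue [IsLocalRing R] (M : Matrix ρ ρ R)
    (h : IsUnit ((M.map (IsLocalRing.residue R)).det)) : IsUnit M.det := by
  have h1 : (M.map (IsLocalRing.residue R)).det = IsLocalRing.residue R M.det :=
    (RingHom.map_det (IsLocalRing.residue R) M).symm
  rw [h1] at h
  exact isUnit_of_map_unit (IsLocalRing.residue R) _ h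

end Inverse

end Fermat.Agent.S19.CH
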