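/-
Cramer–Hensel algebra for S19, part 3: the universal solution and the consumer-facing theorem.

The universal ring of level `n` is `R[e] ⧸ (e) ^ n`, `e = (e_{i,k})_{k < a i}` the lower
coefficients of the distinguished polynomials.  The core theorem gives a unique solution there;
lifting its `τ`-part to polynomials `P i ∈ R[e]` we obtain: every solution over every `R`-algebra
`𝒪` with respect to every ideal `𝔞` (no nilpotency hypothesis) satisfies
`τ i ≡ P i (e) (mod 𝔞 ^ n)`.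
-/
import Fermat.Agent.S19.CH.Core

set_option linter.unusedSectionVars false

namespace Fermat.Agent.S19.CH

open Polynomial

section DistPoly

variable {𝒪 : Type*} [CommRing 𝒪]

/-- The polynomial `X ^ d + ∑_{k < d} e_k X ^ k`. -/
noncomputable def distPoly (d : ℕ) (e : Fin d → 𝒪) : 𝒪[X] :=
  X ^ d + ∑ k : Fin d, C (e k) * X ^ (k : ℕ)

theorem distPoly_monic (d : ℕ) (e : Fin d → 𝒪) : (distPoly d e).Monic :=
  monic_X_pow_add (degree_sum_fin_lt e)

theorem distPoly_natDegree [Nontrivial 𝒪] (d : ℕ) (e : Fin d → 𝒪) : (distPoly d e).natDegree = d := by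
  unfold distPoly
  rw [natDegree_add_eq_left_of_degree_lt, natDegree_X_pow]
  rw [degree_X_pow]
  exact degree_sum_fin_lt e

theorem distPoly_coeff (d : ℕ) (e : Fin d → 𝒪) (k : Fin d) : (distPoly d e).coeff k = e k := by
  unfold distPoly
  rw [coeff_add, coeff_X_pow, if_neg (by have := k.2; omega), zero_add, finsetSum_coeff]
  rw [Finset.sum_eq_single k]
  · simp
  · intro l _ hl
    rw [coeff_C_mul, coeff_X_pow, if_neg (fun h => hl (Fin.ext h.symm)), mul_zero]
  · intro h; exact absurd (Finset.mem_univ k) h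

theorem distPoly_isDistinguishedAt [Nontrivial 𝒪] {𝔞 : Ideal 𝒪} (d : ℕ) (e : Fin d → 𝒪)
    (he : ∀ k, e k ∈ 𝔞) : (distPoly d e).IsDistinguishedAt 𝔞 := by
  refine ⟨⟨fun {k} hk => ?_⟩, distPoly_monic d e⟩
  rw [distPoly_natDegree] at hk
  have := distPoly_coeff d e ⟨k, hk⟩
  simp only at this
  rw [this]
  exact he _

theorem map_distPoly {𝒪' : Type*} [CommRing 𝒪'] (f : 𝒪 →+* 𝒪') (d : ℕ) (e : Fin d → 𝒪) :
    (distPoly d e).map f = distPoly d (fun k => f (e k)) := by
  unfold distPoly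
  rw [Polynomial.map_add, Polynomial.map_pow, map_X, Polynomial.map_sum]
  congr 1
  refine Finset.sum_congr rfl fun k _ => ?_
  rw [Polynomial.map_mul, map_C, Polynomial.map_pow, map_X]

theorem eq_distPoly_of_monic {p : 𝒪[X]} (hp : p.Monic) {d : ℕ} (hd : p.natDegree = d) :
    p = distPoly d (fun k => p.coeff k) := by
  subst hd
  conv_lhs => rw [hp.as_sum]
  unfold distPoly
  rw [Finset.sum_range]

end DistPoly

variable {R : Type*} [CommRing R] {ι J : Type*} [Fintype ι] [DecidableEq ι] [Fintype J]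
  [DecidableEq J]

variable (a : ι → ℕ) (F : ι → J → R[X])

section UnivRing

variable (R)

/-- The augmentation ideal `(e)` of `R[e]`. -/
noncomputable def augIdeal : Ideal (MvPolynomial (Row a) R) := Ideal.span (Set.range MvPolynomial.X)

/-- The universal ring of level `n`. -/
abbrev UnivRing (n : ℕ) : Type _ := MvPolynomial (Row a) R ⧸ (augIdeal R a) ^ n

/-- The universal nilpotent ideal. -/
noncomputable def univIdeal (n : ℕ) : Ideal (UnivRing R a n) :=
  (augIdeal R a).map (Ideal.Quotient.mk ((augIdeal R a) ^ n))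

theorem univIdeal_pow (n : ℕ) : univIdeal R a n ^ n = ⊥ := by
  rw [univIdeal, ← Ideal.map_pow, Ideal.map_quotient_self]

theorem augIdeal_ne_top [Nontrivial R] : augIdeal R a ≠ ⊤ := by
  intro h
  have h1 : augIdeal R a ≤ RingHom.ker (MvPolynomial.constantCoeff (R := R) (σ := Row a)) := by
    rw [augIdeal, Ideal.span_le]
    rintro _ ⟨r, rfl⟩
    simp [RingHom.mem_ker]
  have h2 : (1 : MvPolynomial (Row a) R) ∈ augIdeal R a := by rw [h]; trivial
  have h3 := h1 h2
  rw [RingHom.mem_ker, map_one] at h3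
  exact one_ne_zero h3

theorem univRing_nontrivial [Nontrivial R] {n : ℕ} (hn : n ≠ 0) : Nontrivial (UnivRing R a n) := by
  rw [← not_subsingleton_iff_nontrivial, Ideal.Quotient.subsingleton_iff]
  intro h
  have : augIdeal R a ^ n ≤ augIdeal R a := Ideal.pow_le_self hn
  rw [h] at this
  exact augIdeal_ne_top R a (top_le_iff.1 this)

/-- The universal distinguished polynomials. -/
noncomputable def univW (n : ℕ) (i : ι) : (UnivRing R a n)[X] :=
  distPoly (a i) (fun k => Ideal.Quotient.mk ((augIdeal R a) ^ n) (MvPolynomial.X ⟨i, k⟩))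

theorem univW_isDistinguishedAt [Nontrivial R] {n : ℕ} (hn : n ≠ 0) (i : ι) :
    (univW R a n i).IsDistinguishedAt (univIdeal R a n) := by
  have := univRing_nontrivial R a hn
  refine distPoly_isDistinguishedAt _ _ fun k => ?_
  exact Ideal.mem_map_of_mem _ (Ideal.subset_span ⟨_, rfl⟩)

theorem univW_natDegree [Nontrivial R] {n : ℕ} (hn : n ≠ 0) (i : ι) :
    (univW R a n i).natDegree = a i := by
  have := univRing_nontrivial R a hn
  exact distPoly_natDegree _ _

end UnivRing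

section Main

variable {𝒪 : Type*} [CommRing 𝒪] [Algebra R 𝒪]

/-- The lower coefficients of a family of polynomials, as a point of the universal parameter
space. -/
def lowerCoeffs (W : ι → 𝒪[X]) : Row a → 𝒪 := fun r => (W r.1).coeff r.2

/-- The classifying map `R[e] ⧸ (e)^n → 𝒪 ⧸ 𝔞^n` of a family of distinguished polynomials. -/
noncomputable def classify (n : ℕ) (𝔞 : Ideal 𝒪) (W : ι → 𝒪[X])
    (hW : ∀ r : Row a, (W r.1).coeff r.2 ∈ 𝔞) : UnivRing R a n →ₐ[R] 𝒪 ⧸ 𝔞 ^ n :=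
  Ideal.Quotient.liftₐ ((augIdeal R a) ^ n)
    ((Ideal.Quotient.mkₐ R (𝔞 ^ n)).comp (MvPolynomial.aeval (lowerCoeffs a W)))
    (by
      intro z hz
      have h1 : augIdeal R a ≤ Ideal.comap (MvPolynomial.aeval (R := R) (lowerCoeffs a W)) 𝔞 := by
        rw [augIdeal, Ideal.span_le]
        rintro _ ⟨r, rfl⟩
        simp only [SetLike.mem_coe, Ideal.mem_comap, MvPolynomial.aeval_X]
        exact hW r
      have h2 : z ∈ Ideal.comap (MvPolynomial.aeval (R := R) (lowerCoeffs a W)) (𝔞 ^ n) := by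
        have h3 := Ideal.pow_right_mono h1 n hz
        exact Ideal.le_comap_pow _ n h3
      rw [AlgHom.comp_apply, Ideal.Quotient.mkₐ_eq_mk, Ideal.Quotient.eq_zero_iff_mem]
      exact h2)

theorem classify_mk (n : ℕ) (𝔞 : Ideal 𝒪) (W : ι → 𝒪[X])
    (hW : ∀ r : Row a, (W r.1).coeff r.2 ∈ 𝔞) (p : MvPolynomial (Row a) R) :
    classify a n 𝔞 W hW (Ideal.Quotient.mk _ p)
      = Ideal.Quotient.mk (𝔞 ^ n) (MvPolynomial.aeval (lowerCoeffs a W) p) := by
  rfl

theorem classify_mem (n : ℕ) (𝔞 : Ideal 𝒪) (W : ι → 𝒪[X])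
    (hW : ∀ r : Row a, (W r.1).coeff r.2 ∈ 𝔞) (z : UnivRing R a n) (hz : z ∈ univIdeal R a n) :
    classify a n 𝔞 W hW z ∈ 𝔞.map (Ideal.Quotient.mk (𝔞 ^ n)) := by
  have h1 : univIdeal R a n ≤ Ideal.comap (classify a n 𝔞 W hW)
      (𝔞.map (Ideal.Quotient.mk (𝔞 ^ n))) := by
    rw [univIdeal, Ideal.map_le_iff_le_comap]
    refine Ideal.span_le.2 ?_
    rintro _ ⟨r, rfl⟩
    simp only [SetLike.mem_coe, Ideal.mem_comap]
    rw [classify_mk, MvPolynomial.aeval_X]
    exact Ideal.mem_map_of_mem _ (hW r)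
  exact h1 hz

/-- **Main theorem, specialisation form.** If `P` lifts the `τ`-part of a solution of the
universal problem of level `n`, then for every `R`-algebra `𝒪`, every ideal `𝔞` and every solution
`(x, τ)` (modulo `X ^ N`, `N ≥ (a i + 1) n`) of the problem for distinguished polynomials `W i`, one
has `τ i ≡ P i (lower coefficients of W) (mod 𝔞 ^ n)`. -/
theorem sub_aeval_mem_of_isSol_univ (G : Matrix J (Row a) R) (hGC : G * coeffMatrix a F = 1)
    (hCG : coeffMatrix a F * G = 1) {n : ℕ}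
    (P : ι → MvPolynomial (Row a) R) (xU : J → UnivRing R a n)
    (hU : IsSol a F (univIdeal R a n) (univW R a n) xU
      (fun i => Ideal.Quotient.mk ((augIdeal R a) ^ n) (P i)))
    (𝔞 : Ideal 𝒪) (W : ι → 𝒪[X]) (hW : ∀ i, (W i).IsDistinguishedAt 𝔞)
    (hdeg : ∀ i, (W i).natDegree = a i) (x : J → 𝒪) (τ : ι → 𝒪) (hτ : ∀ i, τ i ∈ 𝔞)
    (u q : ι → 𝒪[X]) (N : ι → ℕ) (hN : ∀ i, (a i + 1) * n ≤ N i)
    (hid : ∀ i, Psi a F x i = W i * (X - C (τ i)) * u i + X ^ (N i) * q i) (i : ι) :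
    τ i - MvPolynomial.aeval (lowerCoeffs a W) (P i) ∈ 𝔞 ^ n := by
  by_cases htop : 𝔞 ^ n = ⊤
  · rw [htop]; trivial
  have hnt : Nontrivial (𝒪 ⧸ 𝔞 ^ n) := by
    rw [← not_subsingleton_iff_nontrivial, Ideal.Quotient.subsingleton_iff]
    exact htop
  set π : 𝒪 →ₐ[R] 𝒪 ⧸ 𝔞 ^ n := Ideal.Quotient.mkₐ R (𝔞 ^ n) with hπ
  set 𝔟 : Ideal (𝒪 ⧸ 𝔞 ^ n) := 𝔞.map (Ideal.Quotient.mk (𝔞 ^ n)) with h𝔟def
  have h𝔟 : 𝔟 ^ n = ⊥ := by rw [h𝔟def, ← Ideal.map_pow, Ideal.map_quotient_self]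
  have hπmem : ∀ z ∈ 𝔞, π z ∈ 𝔟 := fun z hz => Ideal.mem_map_of_mem _ hz
  set Wb : ι → (𝒪 ⧸ 𝔞 ^ n)[X] := fun i => (W i).map (π : 𝒪 →+* 𝒪 ⧸ 𝔞 ^ n) with hWbdef
  have hdegb : ∀ i, (Wb i).natDegree = a i := fun i => by
    rw [hWbdef]
    simp only
    rw [(hW i).monic.natDegree_map, hdeg]
  have hWb : ∀ i, (Wb i).IsDistinguishedAt 𝔟 := fun i => by
    refine ⟨⟨fun {k} hk => ?_⟩, (hW i).monic.map _⟩
    rw [hdegb i, ← hdeg i] at hk
    rw [hWbdef]
    simp only
    rw [coeff_map]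
    exact hπmem _ ((hW i).mem hk)
  -- the actual solution, reduced modulo `𝔞 ^ n`
  have hact : IsSol a F 𝔟 Wb (fun j => π (x j)) (fun i => π (τ i)) := by
    intro i
    refine ⟨hπmem _ (hτ i), ?_⟩
    have h1 := congrArg (Polynomial.map (π : 𝒪 →+* 𝒪 ⧸ 𝔞 ^ n)) (hid i)
    rw [map_Psi, Polynomial.map_add, Polynomial.map_mul, Polynomial.map_mul, Polynomial.map_sub,
      map_X, map_C, Polynomial.map_mul, Polynomial.map_pow, map_X] at h1
    rw [h1]
    refine dvd_add (Dvd.intro _ rfl) (Dvd.dvd.mul_right ?_ _)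
    have hd : (Wb i * (X - C (π (τ i)))).IsDistinguishedAt 𝔟 :=
      (hWb i).mul (isDistinguishedAt_X_sub_C (hπmem _ (hτ i)))
    have hnd : (Wb i * (X - C (π (τ i)))).natDegree = a i + 1 := by
      rw [Monic.natDegree_mul (hWb i).monic (monic_X_sub_C _), hdegb, natDegree_X_sub_C]
    exact dvd_X_pow_of_isDistinguishedAt_of_le h𝔟 hd (by rw [hnd]; exact hN i)
  -- the universal solution, pushed forward
  have hWcoeff : ∀ r : Row a, (W r.1).coeff r.2 ∈ 𝔞 := fun r =>
    (hW r.1).mem (by rw [hdeg]; exact r.2.2)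
  have hpush := IsSol.map a F (classify a n 𝔞 W hWcoeff) (classify_mem a n 𝔞 W hWcoeff) hU
  have hWeq : (fun i => (univW R a n i).map
      ((classify a n 𝔞 W hWcoeff : UnivRing R a n →ₐ[R] 𝒪 ⧸ 𝔞 ^ n) :
        UnivRing R a n →+* 𝒪 ⧸ 𝔞 ^ n)) = Wb := by
    funext i
    rw [univW, map_distPoly, hWbdef]
    simp only
    conv_rhs => rw [eq_distPoly_of_monic (hW i).monic (hdeg i), map_distPoly]
    congr 1
    funext k
    rw [RingHom.coe_coe, classify_mk, MvPolynomial.aeval_X]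
    rfl
  rw [hWeq] at hpush
  have h2 := congrFun (IsSol.unique a F G h𝔟 hGC hCG Wb hWb hdegb hpush hact).2 i
  rw [classify_mk] at h2
  rw [← Ideal.Quotient.eq_zero_iff_mem, map_sub, h2]
  exact sub_self _

/-- **Existence of the universal solution.** -/
theorem exists_univ_isSol [Nontrivial R] (G : Matrix J (Row a) R)
    (hGC : G * coeffMatrix a F = 1) (hCG : coeffMatrix a F * G = 1) {n : ℕ} (hn : n ≠ 0) :
    ∃ (P : ι → MvPolynomial (Row a) R) (xU : J → UnivRing R a n),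
      IsSol a F (univIdeal R a n) (univW R a n) xU
        (fun i => Ideal.Quotient.mk ((augIdeal R a) ^ n) (P i)) := by
  obtain ⟨xU, τU, h⟩ := exists_isSol a F G (univIdeal_pow R a n) hGC hCG (univW R a n)
    (univW_isDistinguishedAt R a hn) (univW_natDegree R a hn)
  have hsurj : ∀ i, ∃ p : MvPolynomial (Row a) R,
      Ideal.Quotient.mk ((augIdeal R a) ^ n) p = τU i := fun i => Ideal.Quotient.mk_surjective _
  choose P hP using hsurj
  refine ⟨P, xU, ?_⟩
  have : (fun i => Ideal.Quotient.mk ((augIdeal R a) ^ n) (P i)) = τU := funext hP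
  rw [this]
  exact h

/-- **Main theorem (Cramer–Hensel, polynomial form).** For every precision `n` there are universal
polynomials `P i` in the lower coefficients of the distinguished polynomials such that every
solution `(x, τ)` over every `R`-algebra `𝒪` (with respect to an arbitrary ideal `𝔞`) satisfies
`τ i ≡ P i (mod 𝔞 ^ n)`. -/
theorem exists_univ_poly (G : Matrix J (Row a) R)
    (hGC : G * coeffMatrix a F = 1) (hCG : coeffMatrix a F * G = 1) (n : ℕ) :
    ∃ P : ι → MvPolynomial (Row a) R,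
      ∀ (𝒪 : Type*) [CommRing 𝒪] [Algebra R 𝒪] (𝔞 : Ideal 𝒪) (W : ι → 𝒪[X])
        (_ : ∀ i, (W i).IsDistinguishedAt 𝔞) (_ : ∀ i, (W i).natDegree = a i)
        (x : J → 𝒪) (τ : ι → 𝒪) (_ : ∀ i, τ i ∈ 𝔞) (u q : ι → 𝒪[X]) (N : ι → ℕ)
        (_ : ∀ i, (a i + 1) * n ≤ N i)
        (_ : ∀ i, Psi a F x i = W i * (X - C (τ i)) * u i + X ^ (N i) * q i) (i : ι),
        τ i - MvPolynomial.aeval (lowerCoeffs a W) (P i) ∈ 𝔞 ^ n := by
  rcases subsingleton_or_nontrivial R with hR | hR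
  · refine ⟨fun _ => 0, ?_⟩
    intro 𝒪 _ _ 𝔞 W _ _ x τ _ u q N _ _ i
    have : Subsingleton 𝒪 := by
      refine ⟨fun y z => ?_⟩
      have h1 : (1 : 𝒪) = 0 := by
        rw [← map_one (algebraMap R 𝒪), Subsingleton.elim (1 : R) 0, map_zero]
      rw [← mul_one y, ← mul_one z, h1, mul_zero, mul_zero]
    rw [Subsingleton.elim (τ i - _) 0]
    exact Ideal.zero_mem _
  by_cases hn : n = 0
  · subst hn
    refine ⟨fun _ => 0, ?_⟩
    intro 𝒪 _ _ 𝔞 W _ _ x τ _ u q N _ _ i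
    rw [pow_zero, Ideal.one_eq_top]
    trivial
  obtain ⟨P, xU, hU⟩ := exists_univ_isSol a F G hGC hCG hn
  refine ⟨P, ?_⟩
  intro 𝒪 _ _ 𝔞 W hW hdeg x τ hτ u q N hN hid i
  exact sub_aeval_mem_of_isSol_univ a F G hGC hCG P xU hU 𝔞 W hW hdeg x τ hτ u q N hN hid i

end Main

end Fermat.Agent.S19.CH
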