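/-
A Yoneda lemma for operations on nilpotent ideals (route-independent; used to turn a functorial
group law / coordinate change on `(S, 𝔪)`, `𝔪` nilpotent, into polynomials over the base ring).

Let `O` be a commutative ring, `σ` an index type for the inputs and `τ` for the outputs.  Suppose
that for every `O`-algebra `S` and ideal `𝔪 ⊂ S` we are given a map
`Θ S 𝔪 : (σ → S) → (τ → S)`, natural for `O`-algebra maps `φ : S → S'` with `φ 𝔪 ⊆ 𝔪'` on inputs
in `𝔪` (only pairs with `𝔪 ^ d = ⊥` matter).  Then there are polynomials `F t ∈ O[X_s : s ∈ σ]`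
with `Θ S 𝔪 a t = aeval a (F t)` for all `(S, 𝔪)` with `𝔪 ^ d = ⊥` and all `a ∈ 𝔪^σ`.

The universal pair is `S_univ = O[X] ⧸ (X)^d`, `𝔪_univ = (X)`.
-/
import Mathlib

set_option autoImplicit false

namespace Fermat.Agent.S19.CH.Yoneda

universe u v w

variable (O : Type u) [CommRing O] (σ : Type v)

/-- The ideal `(X_s : s ∈ σ)` of `O[X]`. -/
noncomputable def varIdeal : Ideal (MvPolynomial σ O) := Ideal.span (Set.range MvPolynomial.X)

/-- The universal ring `O[X] ⧸ (X)^d`. -/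
abbrev Univ (d : ℕ) : Type (max u v) := MvPolynomial σ O ⧸ (varIdeal O σ) ^ d

/-- The universal nilpotent ideal. -/
noncomputable def univMax (d : ℕ) : Ideal (Univ O σ d) :=
  (varIdeal O σ).map (Ideal.Quotient.mk ((varIdeal O σ) ^ d))

/-- The universal point. -/
noncomputable def univPt (d : ℕ) : σ → Univ O σ d :=
  fun s => Ideal.Quotient.mk ((varIdeal O σ) ^ d) (MvPolynomial.X s)

theorem univMax_pow (d : ℕ) : univMax O σ d ^ d = ⊥ := by
  rw [univMax, ← Ideal.map_pow, Ideal.map_quotient_self]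

theorem univPt_mem (d : ℕ) (s : σ) : univPt O σ d s ∈ univMax O σ d :=
  Ideal.mem_map_of_mem _ (Ideal.subset_span ⟨s, rfl⟩)

variable {O σ}
variable {S : Type w} [CommRing S] [Algebra O S]

/-- The classifying map of a point `a ∈ 𝔪^σ` with `𝔪 ^ d = ⊥`. -/
noncomputable def classifyPt (d : ℕ) (𝔪 : Ideal S) (hd : 𝔪 ^ d = ⊥) (a : σ → S)
    (ha : ∀ s, a s ∈ 𝔪) : Univ O σ d →ₐ[O] S :=
  Ideal.Quotient.liftₐ ((varIdeal O σ) ^ d) (MvPolynomial.aeval a)
    (by
      intro z hz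
      have h1 : varIdeal O σ ≤ Ideal.comap (MvPolynomial.aeval (R := O) a) 𝔪 := by
        refine Ideal.span_le.2 ?_
        rintro _ ⟨s, rfl⟩
        simp only [SetLike.mem_coe, Ideal.mem_comap, MvPolynomial.aeval_X]
        exact ha s
      have h2 : z ∈ Ideal.comap (MvPolynomial.aeval (R := O) a) (𝔪 ^ d) :=
        Ideal.le_comap_pow _ d (Ideal.pow_right_mono h1 d hz)
      rw [hd] at h2
      simpa using h2)

theorem classifyPt_mk (d : ℕ) (𝔪 : Ideal S) (hd : 𝔪 ^ d = ⊥) (a : σ → S)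
    (ha : ∀ s, a s ∈ 𝔪) (p : MvPolynomial σ O) :
    classifyPt d 𝔪 hd a ha (Ideal.Quotient.mk _ p) = MvPolynomial.aeval a p :=
  rfl

theorem classifyPt_univPt (d : ℕ) (𝔪 : Ideal S) (hd : 𝔪 ^ d = ⊥) (a : σ → S)
    (ha : ∀ s, a s ∈ 𝔪) (s : σ) : classifyPt d 𝔪 hd a ha (univPt O σ d s) = a s := by
  unfold univPt
  rw [classifyPt_mk, MvPolynomial.aeval_X]

theorem classifyPt_mem (d : ℕ) (𝔪 : Ideal S) (hd : 𝔪 ^ d = ⊥) (a : σ → S)
    (ha : ∀ s, a s ∈ 𝔪) (z : Univ O σ d) (hz : z ∈ univMax O σ d) :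
    classifyPt d 𝔪 hd a ha z ∈ 𝔪 := by
  have h1 : univMax O σ d ≤ Ideal.comap (classifyPt d 𝔪 hd a ha) 𝔪 := by
    rw [univMax, Ideal.map_le_iff_le_comap]
    refine Ideal.span_le.2 ?_
    rintro _ ⟨s, rfl⟩
    simp only [SetLike.mem_coe, Ideal.mem_comap]
    rw [classifyPt_mk, MvPolynomial.aeval_X]
    exact ha s
  exact h1 hz

/-- **Yoneda lemma.** A natural operation on points of nilpotent ideals of exponent `≤ d` is given
by polynomials over the base ring.  Naturality is only required out of the universal pair, so the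
hypothesis `hnat` may be stated for a fixed source `(S₀, 𝔪₀) = (Univ O σ d, univMax O σ d)`; the
form below (all sources in the universe of the universal ring) is the convenient one. -/
theorem exists_poly_of_natural {τ : Type*} (d : ℕ)
    (Θ : ∀ (S : Type (max u v)) [CommRing S] [Algebra O S], Ideal S → (σ → S) → (τ → S))
    (hnat : ∀ (S S' : Type (max u v)) [CommRing S] [CommRing S'] [Algebra O S] [Algebra O S']
      (𝔪 : Ideal S) (𝔪' : Ideal S') (φ : S →ₐ[O] S'), 𝔪 ^ d = ⊥ → 𝔪' ^ d = ⊥ →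
      (∀ z ∈ 𝔪, φ z ∈ 𝔪') → ∀ a : σ → S, (∀ s, a s ∈ 𝔪) →
        Θ S' 𝔪' (fun s => φ (a s)) = fun t => φ (Θ S 𝔪 a t)) :
    ∃ F : τ → MvPolynomial σ O,
      ∀ (S : Type (max u v)) [CommRing S] [Algebra O S] (𝔪 : Ideal S), 𝔪 ^ d = ⊥ →
        ∀ a : σ → S, (∀ s, a s ∈ 𝔪) → Θ S 𝔪 a = fun t => MvPolynomial.aeval a (F t) := by
  have hsurj : ∀ t, ∃ p : MvPolynomial σ O, Ideal.Quotient.mk ((varIdeal O σ) ^ d) p
      = Θ (Univ O σ d) (univMax O σ d) (univPt O σ d) t := fun t =>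
    Ideal.Quotient.mk_surjective _
  choose F hF using hsurj
  refine ⟨F, ?_⟩
  intro S _ _ 𝔪 hd a ha
  have h := hnat (Univ O σ d) S (univMax O σ d) 𝔪 (classifyPt d 𝔪 hd a ha) (univMax_pow O σ d) hd
    (classifyPt_mem d 𝔪 hd a ha) (univPt O σ d) (univPt_mem O σ d)
  have h1 : (fun s => classifyPt d 𝔪 hd a ha (univPt O σ d s)) = a :=
    funext fun s => classifyPt_univPt d 𝔪 hd a ha s
  rw [h1] at h
  rw [h]
  funext t
  rw [← hF t, classifyPt_mk]

/-- **Yoneda lemma, binary form** (the shape of a group law in `g` coordinates): a natural binary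
operation on `𝔪^g` is given by polynomials in `Fin g ⊕ Fin g` variables over the base ring. -/
theorem exists_law_poly {O : Type u} [CommRing O] {g : ℕ} (d : ℕ)
    (add : ∀ (S : Type u) [CommRing S] [Algebra O S], Ideal S →
      (Fin g → S) → (Fin g → S) → (Fin g → S))
    (hnat : ∀ (S S' : Type u) [CommRing S] [CommRing S'] [Algebra O S] [Algebra O S']
      (𝔪 : Ideal S) (𝔪' : Ideal S') (φ : S →ₐ[O] S'), 𝔪 ^ d = ⊥ → 𝔪' ^ d = ⊥ →
      (∀ z ∈ 𝔪, φ z ∈ 𝔪') → ∀ a b : Fin g → S, (∀ i, a i ∈ 𝔪) → (∀ i, b i ∈ 𝔪) →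
        add S' 𝔪' (fun i => φ (a i)) (fun i => φ (b i)) = fun i => φ (add S 𝔪 a b i)) :
    ∃ F : Fin g → MvPolynomial (Fin g ⊕ Fin g) O,
      ∀ (S : Type u) [CommRing S] [Algebra O S] (𝔪 : Ideal S), 𝔪 ^ d = ⊥ →
        ∀ a b : Fin g → S, (∀ i, a i ∈ 𝔪) → (∀ i, b i ∈ 𝔪) →
          add S 𝔪 a b = fun i => MvPolynomial.aeval (Sum.elim a b) (F i) := by
  obtain ⟨F, hF⟩ := exists_poly_of_natural (O := O) (σ := Fin g ⊕ Fin g) (τ := Fin g) d
    (fun S _ _ 𝔪 c => add S 𝔪 (fun i => c (Sum.inl i)) (fun i => c (Sum.inr i)))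
    (by
      intro S S' _ _ _ _ 𝔪 𝔪' φ hd hd' hφ c hc
      exact hnat S S' 𝔪 𝔪' φ hd hd' hφ _ _ (fun i => hc _) (fun i => hc _))
  refine ⟨F, ?_⟩
  intro S _ _ 𝔪 hd a b ha hb
  have h := hF S 𝔪 hd (Sum.elim a b) (fun s => by cases s <;> simp [ha, hb])
  simpa using h

end Fermat.Agent.S19.CH.Yoneda
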